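import Mathlib
import Fermat.Agent.S29lib.K2.YChi

/-!
S48lib / X1 / Kummer / Eis (helper9, block P3).

PARAM port of `S29lib/K2/{EisChi, WH0, YChi}` (helper7) from `Γ₀(N)` to an arbitrary subgroup
`Γ ≤ SL(2,ℤ)` containing `-1`: the twisted Eisenstein series of weight 4 attached to a character
`χ : Γ →* ℂˣ` with `χ ^ n = 1`, trivial on the upper triangular elements,
`E_χ(z) = ½ ∑_{(c,d)} χ(γ_{c,d})⁻¹ (c z + d)⁻⁴` (sum over the bottom rows of `Γ`), the weight-0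
holomorphic `χ`-automorphic function `y_χ := E_χ E₄² / Δ : Hol` and `G_χ : WH0 Γ` with
`toHol G_χ = y_χ ^ n`.
-/

set_option autoImplicit false

noncomputable section

namespace Fermat.Agent.S48lib.X1.Kummer.Eis

open UpperHalfPlane EisensteinSeries Matrix MatrixGroups ModularForm Filter Topology Complex Set
  CongruenceSubgroup Manifold Fermat.Agent.ProgramR Fermat.Agent.ProgramR.LevelOne
open Fermat.Agent.S29lib.K2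

local notation "Δ" => ModularForm.discriminant

variable {Γ : Subgroup SL(2, ℤ)}

section Coeff

variable (χ : ↥Γ →* ℂˣ)

open Classical in
/-- the coefficient function on row vectors: `χ(γ)⁻¹` on the bottom row of `γ ∈ Γ`, zero on the
vectors which are not bottom rows of elements of `Γ` -/
def chiCoeff (v : Fin 2 → ℤ) : ℂ :=
  if h : ∃ γ : ↥Γ, bottomRow (γ : SL(2, ℤ)) = v then
    (((χ (Classical.choose h))⁻¹ : ℂˣ) : ℂ) else 0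

variable {χ}

theorem chiCoeff_bottomRow
    (hχ : ∀ γ : ↥Γ, (γ : SL(2, ℤ)) 1 0 = 0 → χ γ = 1) (γ : ↥Γ) :
    chiCoeff χ (bottomRow (γ : SL(2, ℤ))) = (((χ γ)⁻¹ : ℂˣ) : ℂ) := by
  have h : ∃ γ' : ↥Γ, bottomRow (γ' : SL(2, ℤ)) = bottomRow (γ : SL(2, ℤ)) := ⟨γ, rfl⟩
  unfold chiCoeff
  rw [dif_pos h]
  set γ' := Classical.choose h with hγ'
  have hrow : bottomRow (γ' : SL(2, ℤ)) = bottomRow (γ : SL(2, ℤ)) := Classical.choose_spec h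
  have h0 : ((γ' * γ⁻¹ : ↥Γ) : SL(2, ℤ)) 1 0 = 0 :=
    mul_inv_apply_one_zero_of_bottomRow_eq hrow
  have h1 : χ (γ' * γ⁻¹) = 1 := hχ _ h0
  rw [map_mul, map_inv, mul_inv_eq_one] at h1
  rw [h1]

theorem chiCoeff_of_not_exists {v : Fin 2 → ℤ}
    (h : ¬ ∃ γ : ↥Γ, bottomRow (γ : SL(2, ℤ)) = v) : chiCoeff χ v = 0 := by
  unfold chiCoeff
  rw [dif_neg h]

theorem chiCoeff_vecMul
    (hχ : ∀ γ : ↥Γ, (γ : SL(2, ℤ)) 1 0 = 0 → χ γ = 1) (v : Fin 2 → ℤ)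
    (γ : ↥Γ) :
    chiCoeff χ (v ᵥ* ((γ : SL(2, ℤ)) : Matrix (Fin 2) (Fin 2) ℤ)) =
      chiCoeff χ v * (((χ γ)⁻¹ : ℂˣ) : ℂ) := by
  by_cases h : ∃ γ₀ : ↥Γ, bottomRow (γ₀ : SL(2, ℤ)) = v
  · obtain ⟨γ₀, rfl⟩ := h
    have h1 : bottomRow (γ₀ : SL(2, ℤ)) ᵥ* ((γ : SL(2, ℤ)) : Matrix (Fin 2) (Fin 2) ℤ) =
        bottomRow (((γ₀ * γ : ↥Γ) : SL(2, ℤ))) := by
      rw [Subgroup.coe_mul, bottomRow_mul]
    rw [h1, chiCoeff_bottomRow hχ, chiCoeff_bottomRow hχ, map_mul, mul_inv, Units.val_mul,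
      mul_comm]
  · have h' : ¬ ∃ γ₀ : ↥Γ, bottomRow (γ₀ : SL(2, ℤ)) =
        v ᵥ* ((γ : SL(2, ℤ)) : Matrix (Fin 2) (Fin 2) ℤ) := by
      rintro ⟨γ₀, hγ₀⟩
      apply h
      refine ⟨γ₀ * γ⁻¹, ?_⟩
      rw [Subgroup.coe_mul, bottomRow_mul, hγ₀, Subgroup.coe_inv, vecMul_vecMul, coe_mul_coe_inv,
        vecMul_one]
    rw [chiCoeff_of_not_exists h, chiCoeff_of_not_exists h', zero_mul]

theorem norm_chiCoeff_le (hnorm : ∀ γ : ↥Γ, ‖((χ γ : ℂˣ) : ℂ)‖ = 1) (v : Fin 2 → ℤ) :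
    ‖chiCoeff χ v‖ ≤ 1 := by
  unfold chiCoeff
  split_ifs with h
  · rw [Units.val_inv_eq_inv_val, norm_inv, hnorm, inv_one]
  · rw [norm_zero]
    exact zero_le_one

end Coeff

section Values

variable {χ : ↥Γ →* ℂˣ}

theorem chiCoeff_zero_one (hχ : ∀ γ : ↥Γ, (γ : SL(2, ℤ)) 1 0 = 0 → χ γ = 1) :
    chiCoeff χ ![0, 1] = 1 := by
  have h := chiCoeff_bottomRow hχ (1 : ↥Γ)
  rw [Subgroup.coe_one, bottomRow_one, map_one, inv_one, Units.val_one] at h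
  exact h

theorem chiCoeff_zero_neg_one (hneg : (-1 : SL(2, ℤ)) ∈ Γ) (hχ : ∀ γ : ↥Γ, (γ : SL(2, ℤ)) 1 0 = 0 → χ γ = 1) :
    chiCoeff χ ![0, -1] = 1 := by
  have h := chiCoeff_bottomRow hχ (⟨-1, hneg⟩ : ↥Γ)
  have h1 : χ (⟨-1, hneg⟩ : ↥Γ) = 1 := hχ _ (by simp)
  rw [h1, inv_one, Units.val_one] at h
  rw [← bottomRow_neg_one]
  exact h

theorem chiCoeff_eq_zero_of_zero {v : Fin 2 → ℤ} (hv0 : v 0 = 0) (h1 : v ≠ ![0, 1])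
    (h2 : v ≠ ![0, -1]) : chiCoeff χ v = 0 := by
  refine chiCoeff_of_not_exists ?_
  rintro ⟨γ, rfl⟩
  rcases eq_of_bottomRow_zero (γ : SL(2, ℤ)) hv0 with h | h
  · exact h1 h
  · exact h2 h

end Values

/-! ### the series -/

section Series

variable (χ : ↥Γ →* ℂˣ)

/-- **the twisted Eisenstein series of weight 4** -/
def eisChi (z : ℍ) : ℂ := (1 / 2 : ℂ) * twEis (chiCoeff χ) 4 z

/-- its translate at the cusp `g • i∞`: `E_χ(g z) = (c z + d)^4 · eisChiAt χ g z` -/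
def eisChiAt (g : SL(2, ℤ)) (z : ℍ) : ℂ :=
  (1 / 2 : ℂ) *
    twEis (fun w => chiCoeff χ (w ᵥ* ((g⁻¹ : SL(2, ℤ)) : Matrix (Fin 2) (Fin 2) ℤ))) 4 z

variable {χ}

/-- holomorphy -/
theorem mdifferentiable_eisChi (hnorm : ∀ γ : ↥Γ, ‖((χ γ : ℂˣ) : ℂ)‖ = 1) :
    MDiff (eisChi χ) :=
  (mdifferentiable_const (c := (1 / 2 : ℂ))).mul
    (mdifferentiable_twEis (norm_chiCoeff_le hnorm) (by norm_num))

/-- behaviour under all of `SL(2,ℤ)` -/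
theorem eisChi_smul_SL (g : SL(2, ℤ)) (z : ℍ) :
    eisChi χ (g • z) = denom g z ^ (4 : ℤ) * eisChiAt χ g z := by
  unfold eisChi eisChiAt
  rw [twEis_smul]
  ring

theorem isBoundedAtImInfty_eisChiAt (hnorm : ∀ γ : ↥Γ, ‖((χ γ : ℂˣ) : ℂ)‖ = 1)
    (g : SL(2, ℤ)) : IsBoundedAtImInfty (eisChiAt χ g) := by
  have h1 : IsBoundedAtImInfty
      (twEis (fun w => chiCoeff χ (w ᵥ* ((g⁻¹ : SL(2, ℤ)) : Matrix (Fin 2) (Fin 2) ℤ))) 4) :=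
    isBoundedAtImInfty_twEis (fun v => norm_chiCoeff_le hnorm _) (by norm_num)
  exact (Filter.const_boundedAtFilter atImInfty (1 / 2 : ℂ)).mul h1

/-- **the transformation law under `Γ`** -/
theorem eisChi_smul (hχ : ∀ γ : ↥Γ, (γ : SL(2, ℤ)) 1 0 = 0 → χ γ = 1)
    (γ : ↥Γ) (z : ℍ) :
    eisChi χ ((γ : SL(2, ℤ)) • z) =
      ((χ γ : ℂˣ) : ℂ) * denom (γ : SL(2, ℤ)) z ^ (4 : ℤ) * eisChi χ z := by
  rw [eisChi_smul_SL]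
  unfold eisChiAt eisChi
  have h1 : ∀ w : Fin 2 → ℤ,
      chiCoeff χ (w ᵥ* (((γ : SL(2, ℤ))⁻¹ : SL(2, ℤ)) : Matrix (Fin 2) (Fin 2) ℤ)) =
        chiCoeff χ w * ((χ γ : ℂˣ) : ℂ) := by
    intro w
    have h2 := chiCoeff_vecMul hχ w γ⁻¹
    rw [Subgroup.coe_inv, map_inv, inv_inv] at h2
    exact h2
  rw [twEis_congr h1]
  unfold twEis
  simp_rw [mul_right_comm _ ((χ γ : ℂˣ) : ℂ) _]
  rw [tsum_mul_right]
  ring

end Series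

/-! ### the value at `i∞` -/

section Limit

variable {χ : ↥Γ →* ℂˣ}

/-- **`E_χ → 1` at `i∞`** -/
theorem tendsto_eisChi (hneg : (-1 : SL(2, ℤ)) ∈ Γ) (hnorm : ∀ γ : ↥Γ, ‖((χ γ : ℂˣ) : ℂ)‖ = 1)
    (hχ : ∀ γ : ↥Γ, (γ : SL(2, ℤ)) 1 0 = 0 → χ γ = 1) :
    Tendsto (eisChi χ) atImInfty (𝓝 1) := by
  set a := chiCoeff χ with ha_def
  set a₀ : (Fin 2 → ℤ) → ℂ := fun v => if v 0 = 0 then a v else 0 with ha₀_def
  set a₁ : (Fin 2 → ℤ) → ℂ := fun v => if v 0 = 0 then 0 else a v with ha₁_def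
  have ha : ∀ v, ‖a v‖ ≤ 1 := norm_chiCoeff_le hnorm
  have ha₀ : ∀ v, ‖a₀ v‖ ≤ 1 := fun v => by
    simp only [ha₀_def]
    split_ifs
    · exact ha v
    · rw [norm_zero]; exact zero_le_one
  have ha₁ : ∀ v, ‖a₁ v‖ ≤ 1 := fun v => by
    simp only [ha₁_def]
    split_ifs
    · rw [norm_zero]; exact zero_le_one
    · exact ha v
  have hsplit : ∀ z, twEis a 4 z = twEis a₀ 4 z + twEis a₁ 4 z := fun z => by
    rw [← twEis_add ha₀ ha₁ (by norm_num)]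
    refine twEis_congr (fun v => ?_) 4 z
    simp only [ha₀_def, ha₁_def]
    split_ifs
    · rw [add_zero]
    · rw [zero_add]
  have hne : (![0, 1] : Fin 2 → ℤ) ≠ ![0, -1] := by
    intro h
    have := congrFun h 1
    simp at this
  have h0 : ∀ z, twEis a₀ 4 z = 2 := by
    intro z
    have hsupp : ∀ v : Fin 2 → ℤ, v ∉ ({![0, 1], ![0, -1]} : Finset (Fin 2 → ℤ)) → a₀ v = 0 := by
      intro v hv
      simp only [Finset.mem_insert, Finset.mem_singleton, not_or] at hv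
      simp only [ha₀_def]
      split_ifs with hv0
      · exact chiCoeff_eq_zero_of_zero hv0 hv.1 hv.2
      · rfl
    rw [twEis_eq_sum _ hsupp 4 z, Finset.sum_pair hne]
    have e1 : a₀ ![0, 1] = 1 := by
      simp only [ha₀_def, Matrix.cons_val_zero, if_true]
      exact chiCoeff_zero_one hχ
    have e2 : a₀ ![0, -1] = 1 := by
      simp only [ha₀_def, Matrix.cons_val_zero, if_true]
      exact chiCoeff_zero_neg_one hneg hχ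
    rw [e1, e2, eisSummand_zero_one, eisSummand_zero_neg_one]
    norm_num
  have h1 : Tendsto (twEis a₁ 4) atImInfty (𝓝 0) :=
    isZeroAtImInfty_twEis_of_vanish ha₁ (by norm_num) (fun v hv => by simp [ha₁_def, hv])
  have heq : eisChi χ = fun z => (1 / 2 : ℂ) * (2 + twEis a₁ 4 z) := by
    funext z
    unfold eisChi
    rw [← ha_def, hsplit, h0]
  rw [heq]
  have h2 := ((tendsto_const_nhds (x := (2 : ℂ)) (f := atImInfty)).add h1).const_mul (1 / 2 : ℂ)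
  simpa using h2

/-- `E_χ` is not identically zero; more precisely it is nonzero for `Im z` large -/
theorem eventually_eisChi_ne_zero (hneg : (-1 : SL(2, ℤ)) ∈ Γ) (hnorm : ∀ γ : ↥Γ, ‖((χ γ : ℂˣ) : ℂ)‖ = 1)
    (hχ : ∀ γ : ↥Γ, (γ : SL(2, ℤ)) 1 0 = 0 → χ γ = 1) :
    ∀ᶠ z in atImInfty, eisChi χ z ≠ 0 :=
  (tendsto_eisChi hneg hnorm hχ).eventually_ne one_ne_zero

theorem exists_eisChi_ne_zero (hneg : (-1 : SL(2, ℤ)) ∈ Γ) (hnorm : ∀ γ : ↥Γ, ‖((χ γ : ℂˣ) : ℂ)‖ = 1)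
    (hχ : ∀ γ : ↥Γ, (γ : SL(2, ℤ)) 1 0 = 0 → χ γ = 1) :
    ∃ z : ℍ, eisChi χ z ≠ 0 :=
  (eventually_eisChi_ne_zero hneg hnorm hχ).exists

end Limit


variable {χ : ↥Γ →* ℂˣ}

theorem norm_eq_one_of_pow_eq_one {n : ℕ} (hn : n ≠ 0) (hχn : ∀ γ : ↥Γ, χ γ ^ n = 1)
    (γ : ↥Γ) : ‖((χ γ : ℂˣ) : ℂ)‖ = 1 := by
  have h1 : ((χ γ : ℂˣ) : ℂ) ^ n = 1 := by
    rw [← Units.val_pow_eq_pow_val, hχn γ, Units.val_one]
  exact Complex.norm_eq_one_of_pow_eq_one h1 hn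

/-- the weight-0 function attached to `χ` -/
def wh0Chi (χ : ↥Γ →* ℂˣ) (n : ℕ) (z : ℍ) : ℂ :=
  eisChi χ z ^ n * E₄ z ^ (2 * n) / Δ z ^ n

theorem mdifferentiable_wh0Chi (hnorm : ∀ γ : ↥Γ, ‖((χ γ : ℂˣ) : ℂ)‖ = 1) (n : ℕ) :
    MDiff (wh0Chi χ n) := by
  have h1 : MDiff (fun z => eisChi χ z ^ n * E₄ z ^ (2 * n)) :=
    (mdifferentiable_pow (mdifferentiable_eisChi hnorm) n).mul
      (S29lib.K2.mdifferentiable_pow S29lib.K2.mdifferentiable_E₄ (2 * n))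
  exact h1.div (S29lib.K2.mdifferentiable_pow S29lib.K2.mdifferentiable_discriminant n)
    (fun z => pow_ne_zero n (discriminant_ne_zero z))

/-- translate of `wh0Chi` under `g ∈ SL(2,ℤ)` -/
theorem wh0Chi_smul_SL (n : ℕ) (g : SL(2, ℤ)) (z : ℍ) :
    wh0Chi χ n (g • z) * Δ z ^ n = eisChiAt χ g z ^ n * E₄ z ^ (2 * n) := by
  have hd : denom g z ≠ 0 := denom_ne_zero _ _
  have hΔ : Δ z ≠ 0 := discriminant_ne_zero z
  unfold wh0Chi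
  rw [eisChi_smul_SL, E₄_smul, discriminant_smul]
  have e4 : (denom g z ^ (4 : ℤ)) = denom g z ^ 4 := by norm_cast
  have e12 : (denom g z ^ (12 : ℤ)) = denom g z ^ 12 := by norm_cast
  rw [e4, e12]
  field_simp
  ring

/-- **`E_χ^n E₄^{2n} / Δ^n` is a weakly holomorphic modular function for `Γ`** -/
theorem isWH0_wh0Chi {n : ℕ} (hn : n ≠ 0) (hχn : ∀ γ : ↥Γ, χ γ ^ n = 1)
    (hχ : ∀ γ : ↥Γ, (γ : SL(2, ℤ)) 1 0 = 0 → χ γ = 1) :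
    IsWH0 Γ (wh0Chi χ n) where
  mdiff := mdifferentiable_wh0Chi (norm_eq_one_of_pow_eq_one hn hχn) n
  smul_eq := by
    intro γ hγ z
    have hd : denom γ z ≠ 0 := denom_ne_zero _ _
    have hΔ : Δ z ≠ 0 := discriminant_ne_zero z
    have h1 := eisChi_smul hχ ⟨γ, hγ⟩ z
    have h2 : ((χ ⟨γ, hγ⟩ : ℂˣ) : ℂ) ^ n = 1 := by
      rw [← Units.val_pow_eq_pow_val, hχn, Units.val_one]
    simp only at h1
    unfold wh0Chi
    rw [h1, E₄_smul, discriminant_smul]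
    have e4 : (denom γ z ^ (4 : ℤ)) = denom γ z ^ 4 := by norm_cast
    have e12 : (denom γ z ^ (12 : ℤ)) = denom γ z ^ 12 := by norm_cast
    rw [e4, e12, mul_pow, mul_pow, h2]
    field_simp
    ring
  exists_bdd := by
    refine ⟨n, fun g => ?_⟩
    have hb1 : IsBoundedAtImInfty (eisChiAt χ g) :=
      isBoundedAtImInfty_eisChiAt (norm_eq_one_of_pow_eq_one hn hχn) g
    have hb2 : IsBoundedAtImInfty (fun z : ℍ => E₄ z) :=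
      tendsto_E₄_atImInfty.isBigO_one ℝ
    have hpow : ∀ {f : ℍ → ℂ}, IsBoundedAtImInfty f → ∀ m : ℕ,
        IsBoundedAtImInfty (fun z => f z ^ m) := by
      intro f hf m
      induction m with
      | zero => simpa using isBoundedAtImInfty_const 1
      | succ m ih =>
        have h : IsBoundedAtImInfty ((fun z : ℍ => f z ^ m) * f) := ih.mul hf
        have e : ((fun z : ℍ => f z ^ m) * f) = fun z : ℍ => f z ^ (m + 1) := by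
          funext z; simp [pow_succ]
        rwa [e] at h
    have h3 : IsBoundedAtImInfty
        ((fun z : ℍ => eisChiAt χ g z ^ n) * (fun z : ℍ => E₄ z ^ (2 * n))) :=
      (hpow hb1 n).mul (hpow hb2 (2 * n))
    refine Asymptotics.IsBigO.congr_left h3 fun z => ?_
    rw [wh0Chi_smul_SL]
    rfl

theorem wh0Chi_mem_WH0 {n : ℕ} (hn : n ≠ 0) (hχn : ∀ γ : ↥Γ, χ γ ^ n = 1)
    (hχ : ∀ γ : ↥Γ, (γ : SL(2, ℤ)) 1 0 = 0 → χ γ = 1) :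
    wh0Chi χ n ∈ WH0 Γ :=
  isWH0_wh0Chi hn hχn hχ

/-- `wh0Chi χ n` does not vanish for `Im z` large -/
theorem eventually_wh0Chi_ne_zero (hneg : (-1 : SL(2, ℤ)) ∈ Γ) {n : ℕ} (hn : n ≠ 0) (hχn : ∀ γ : ↥Γ, χ γ ^ n = 1)
    (hχ : ∀ γ : ↥Γ, (γ : SL(2, ℤ)) 1 0 = 0 → χ γ = 1) :
    ∀ᶠ z in atImInfty, wh0Chi χ n z ≠ 0 := by
  have h1 := eventually_eisChi_ne_zero hneg (norm_eq_one_of_pow_eq_one hn hχn) hχ
  have h2 : ∀ᶠ z in atImInfty, E₄ z ≠ 0 := tendsto_E₄_atImInfty.eventually_ne one_ne_zero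
  filter_upwards [h1, h2] with z hz1 hz2
  unfold wh0Chi
  exact div_ne_zero (mul_ne_zero (pow_ne_zero n hz1) (pow_ne_zero _ hz2))
    (pow_ne_zero n (discriminant_ne_zero z))

theorem wh0Chi_ne_zero (hneg : (-1 : SL(2, ℤ)) ∈ Γ) {n : ℕ} (hn : n ≠ 0) (hχn : ∀ γ : ↥Γ, χ γ ^ n = 1)
    (hχ : ∀ γ : ↥Γ, (γ : SL(2, ℤ)) 1 0 = 0 → χ γ = 1) : wh0Chi χ n ≠ 0 := by
  obtain ⟨z, hz⟩ := (eventually_wh0Chi_ne_zero hneg hn hχn hχ).exists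
  intro h
  exact hz (by rw [h]; rfl)

/-! ### the `χ`-automorphic function `h_χ = E_χ / E₄` -/

/-- `h_χ := E_χ / E₄` (meromorphic on `ℍ`, poles only at the zeros of `E₄`) -/
def hChi (χ : ↥Γ →* ℂˣ) (z : ℍ) : ℂ := eisChi χ z / E₄ z

/-- **`h_χ(γ z) = χ(γ) h_χ(z)` for `γ ∈ Γ`** (also at the zeros of `E₄`, where both sides are `0`
by the convention `x / 0 = 0`) -/
theorem hChi_smul (hχ : ∀ γ : ↥Γ, (γ : SL(2, ℤ)) 1 0 = 0 → χ γ = 1)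
    (γ : ↥Γ) (z : ℍ) :
    hChi χ ((γ : SL(2, ℤ)) • z) = ((χ γ : ℂˣ) : ℂ) * hChi χ z := by
  have hd : denom (γ : SL(2, ℤ)) z ^ (4 : ℤ) ≠ 0 := zpow_ne_zero _ (denom_ne_zero _ _)
  unfold hChi
  rw [eisChi_smul hχ, E₄_smul, mul_comm ((χ γ : ℂˣ) : ℂ), mul_assoc, mul_div_mul_left _ _ hd,
    mul_div_assoc]

/-- `h_χ ^ n = (E_χ^n E₄^{2n} / Δ^n) / j^n` -/
theorem hChi_pow {n : ℕ} (hn : n ≠ 0) (z : ℍ) :
    hChi χ z ^ n = wh0Chi χ n z / jInv z ^ n := by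
  have hΔ : Δ z ≠ 0 := discriminant_ne_zero z
  unfold hChi wh0Chi
  rw [jInv_def]
  by_cases hE : E₄ z = 0
  · rw [hE, div_zero, zero_pow hn, zero_pow (by omega : 2 * n ≠ 0), mul_zero, zero_div, zero_div]
  · have hE' : E₄ z ^ (2 * n) ≠ 0 := pow_ne_zero _ hE
    rw [div_pow, div_pow, ← pow_mul, div_div_div_cancel_right₀ (pow_ne_zero n hΔ),
      show 3 * n = n + 2 * n by ring, pow_add, mul_div_mul_right _ _ hE']


/-- `y_χ = E_χ E₄² / Δ` as a function -/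
def yChiFun (χ : ↥Γ →* ℂˣ) (z : ℍ) : ℂ := eisChi χ z * E₄ z ^ 2 / Δ z

theorem mdifferentiable_yChiFun (hnorm : ∀ γ : ↥Γ, ‖((χ γ : ℂˣ) : ℂ)‖ = 1) :
    MDiff (yChiFun χ) := by
  have h1 : MDiff (fun z => eisChi χ z * E₄ z ^ 2) :=
    (mdifferentiable_eisChi hnorm).mul (S29lib.K2.mdifferentiable_pow S29lib.K2.mdifferentiable_E₄ 2)
  exact h1.div S29lib.K2.mdifferentiable_discriminant (fun z => discriminant_ne_zero z)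

/-- **`y_χ(γ z) = χ(γ) y_χ(z)`** -/
theorem yChiFun_smul (hχ : ∀ γ : ↥Γ, (γ : SL(2, ℤ)) 1 0 = 0 → χ γ = 1)
    (γ : ↥Γ) (z : ℍ) :
    yChiFun χ ((γ : SL(2, ℤ)) • z) = ((χ γ : ℂˣ) : ℂ) * yChiFun χ z := by
  have hd : denom (γ : SL(2, ℤ)) z ≠ 0 := denom_ne_zero _ _
  have hΔ : Δ z ≠ 0 := discriminant_ne_zero z
  unfold yChiFun
  rw [eisChi_smul hχ, E₄_smul, discriminant_smul]
  have e4 : (denom (γ : SL(2, ℤ)) z ^ (4 : ℤ)) = denom (γ : SL(2, ℤ)) z ^ 4 := by norm_cast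
  have e12 : (denom (γ : SL(2, ℤ)) z ^ (12 : ℤ)) = denom (γ : SL(2, ℤ)) z ^ 12 := by norm_cast
  rw [e4, e12]
  field_simp

theorem yChiFun_pow (n : ℕ) (z : ℍ) : yChiFun χ z ^ n = wh0Chi χ n z := by
  unfold yChiFun wh0Chi
  rw [div_pow, mul_pow, ← pow_mul]

theorem eventually_yChiFun_ne_zero (hneg : (-1 : SL(2, ℤ)) ∈ Γ) (hnorm : ∀ γ : ↥Γ, ‖((χ γ : ℂˣ) : ℂ)‖ = 1)
    (hχ : ∀ γ : ↥Γ, (γ : SL(2, ℤ)) 1 0 = 0 → χ γ = 1) :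
    ∀ᶠ z in atImInfty, yChiFun χ z ≠ 0 := by
  have h1 := eventually_eisChi_ne_zero hneg hnorm hχ
  have h2 : ∀ᶠ z in atImInfty, E₄ z ≠ 0 := tendsto_E₄_atImInfty.eventually_ne one_ne_zero
  filter_upwards [h1, h2] with z hz1 hz2
  unfold yChiFun
  exact div_ne_zero (mul_ne_zero hz1 (pow_ne_zero _ hz2)) (discriminant_ne_zero z)

/-- `y_χ` as an element of `Hol` -/
def yChi (χ : ↥Γ →* ℂˣ) (hnorm : ∀ γ : ↥Γ, ‖((χ γ : ℂˣ) : ℂ)‖ = 1) : Hol :=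
  ⟨yChiFun χ, mdifferentiable_yChiFun hnorm⟩

@[simp] theorem yChi_apply (hnorm : ∀ γ : ↥Γ, ‖((χ γ : ℂˣ) : ℂ)‖ = 1) (z : ℍ) :
    (yChi χ hnorm : ℍ → ℂ) z = yChiFun χ z := rfl

theorem yChi_smul (hnorm : ∀ γ : ↥Γ, ‖((χ γ : ℂˣ) : ℂ)‖ = 1)
    (hχ : ∀ γ : ↥Γ, (γ : SL(2, ℤ)) 1 0 = 0 → χ γ = 1) (γ : ↥Γ) (z : ℍ) :
    (yChi χ hnorm : ℍ → ℂ) ((γ : SL(2, ℤ)) • z) = ((χ γ : ℂˣ) : ℂ) * (yChi χ hnorm : ℍ → ℂ) z :=
  yChiFun_smul hχ γ z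

theorem yChi_ne_zero (hneg : (-1 : SL(2, ℤ)) ∈ Γ) (hnorm : ∀ γ : ↥Γ, ‖((χ γ : ℂˣ) : ℂ)‖ = 1)
    (hχ : ∀ γ : ↥Γ, (γ : SL(2, ℤ)) 1 0 = 0 → χ γ = 1) : yChi χ hnorm ≠ 0 := by
  obtain ⟨z, hz⟩ := (eventually_yChiFun_ne_zero hneg hnorm hχ).exists
  intro h
  apply hz
  have := congrArg (fun f : Hol => (f : ℍ → ℂ) z) h
  simpa using this

/-- `G_χ = E_χ^n E₄^{2n} / Δ^n` as an element of `WH0 (Γ)` -/
def gChi (χ : ↥Γ →* ℂˣ) {n : ℕ} (hn : n ≠ 0) (hχn : ∀ γ : ↥Γ, χ γ ^ n = 1)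
    (hχ : ∀ γ : ↥Γ, (γ : SL(2, ℤ)) 1 0 = 0 → χ γ = 1) : ↥(WH0 Γ) :=
  ⟨wh0Chi χ n, wh0Chi_mem_WH0 hn hχn hχ⟩

/-- **`toHol G_χ = y_χ ^ n`** -/
theorem toHol_gChi {n : ℕ} (hn : n ≠ 0) (hχn : ∀ γ : ↥Γ, χ γ ^ n = 1)
    (hχ : ∀ γ : ↥Γ, (γ : SL(2, ℤ)) 1 0 = 0 → χ γ = 1) :
    WH0.toHol Γ (gChi χ hn hχn hχ) =
      yChi χ (norm_eq_one_of_pow_eq_one hn hχn) ^ n := by
  refine Hol.ext fun z => ?_
  have h1 : ((yChi χ (norm_eq_one_of_pow_eq_one hn hχn) ^ n : Hol) : ℍ → ℂ) z =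
      yChiFun χ z ^ n := rfl
  rw [h1, yChiFun_pow]
  rfl

theorem gChi_ne_zero (hneg : (-1 : SL(2, ℤ)) ∈ Γ) {n : ℕ} (hn : n ≠ 0) (hχn : ∀ γ : ↥Γ, χ γ ^ n = 1)
    (hχ : ∀ γ : ↥Γ, (γ : SL(2, ℤ)) 1 0 = 0 → χ γ = 1) : gChi χ hn hχn hχ ≠ 0 := by
  intro h
  have h1 := toHol_gChi hn hχn hχ
  rw [h, map_zero] at h1
  exact yChi_ne_zero hneg (norm_eq_one_of_pow_eq_one hn hχn) hχ (pow_eq_zero_iff hn |>.mp h1.symm)


end Fermat.Agent.S48lib.X1.Kummer.Eis
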