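import Mathlib
import Fermat.Agent.S18lib.RRgen.Main
import Fermat.Agent.S48lib.X1.Chart.Infty
import Fermat.Agent.S48lib.X1.Chart.Fin

/-!
S48lib / X1 / Kummer / Curve (helper9, block P3).

PARAM port of `S29lib/K3/Curve` (helper6) from `Γ₀(N)` to an arbitrary subgroup `Γ ≤ SL(2,ℤ)` of
finite index: the analytic function field `Fan Γ = Frac (WH0 Γ)` as a Prelude curve over `ℂ`
(`RRgen.isCurveOfGenus`), its places in terms of the two charts, the divisibility predicate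
`NDivF n f`, and (K3a) for `Γ` acting freely modulo `±1`: if the divisor of `G ∈ WH0 Γ` is divisible
by `n` then so are all its analytic orders on `ℍ`, and conversely.
-/

set_option autoImplicit false
set_option linter.unusedSectionVars false

noncomputable section

namespace Fermat.Agent.S48lib.X1.Kummer

open Fermat.Agent.ProgramR Fermat.Agent.ProgramR.RR Fermat.Agent.ProgramR.Alg
open Fermat.Agent.S18lib AlgebraicCurve CongruenceSubgroup IsDedekindDomain UpperHalfPlane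
open Fermat.Agent.S48lib.X1.Chart
open scoped MatrixGroups

variable (Γ : Subgroup SL(2, ℤ)) [Fintype (SL(2, ℤ) ⧸ Γ)]

/-- the analytic function field of `Γ \ ℍ*` over `ℂ` -/
abbrev Fan : Type := FF ℂ (WH0 Γ)

/-- the chart at infinity -/
abbrev BInf : Subalgebra (Ainf ℂ) (Fan Γ) := Binf ℂ (WH0 Γ)

instance isScalarTower_C_Ainf_Fan : IsScalarTower ℂ (Ainf ℂ) (Fan Γ) :=
  IsScalarTower.of_algebraMap_eq fun a => by
    rw [IsScalarTower.algebraMap_apply ℂ (RatFunc ℂ) (Fan Γ)]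
    rfl

instance algebraBInf : Algebra ℂ (BInf Γ) := Subalgebra.algebra' (BInf Γ)

instance isScalarTower_C_BInf_Fan : IsScalarTower ℂ (BInf Γ) (Fan Γ) :=
  IsScalarTower.of_algebraMap_eq fun _ => rfl

/-- the genus of the analytic curve -/
def genusAn : ℕ := RRgen.genus ℂ (Fan Γ) (WH0 Γ) (BInf Γ)

/-- **the analytic function field is a Prelude curve** -/
theorem isCurveAn : IsCurveOfGenus ℂ (Fan Γ) (genusAn Γ) :=
  RRgen.isCurveOfGenus ℂ (Fan Γ) (WH0 Γ) (BInf Γ)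

/-- the place of a prime of the finite chart -/
abbrev plFin (P : HeightOneSpectrum (WH0 Γ)) : Place ℂ (Fan Γ) :=
  RRgen.placeFin ℂ (Fan Γ) (WH0 Γ) P

/-- the place of a prime of the chart at infinity -/
abbrev plInf (Q : HeightOneSpectrum (BInf Γ)) : Place ℂ (Fan Γ) :=
  RRgen.placeInf ℂ (Fan Γ) (BInf Γ) Q

lemma ord_plFin (P : HeightOneSpectrum (WH0 Γ)) (f : Fan Γ) : (plFin Γ P).ord f = ordV P f :=
  RRgen.ord_placeFin ℂ (Fan Γ) (WH0 Γ) P f

lemma ord_plInf (Q : HeightOneSpectrum (BInf Γ)) (f : Fan Γ) : (plInf Γ Q).ord f = ordV Q f :=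
  RRgen.ord_placeInf ℂ (Fan Γ) (BInf Γ) Q f

lemma exists_plFin_or_plInf (v : Place ℂ (Fan Γ)) :
    (∃ P, plFin Γ P = v) ∨ (∃ Q, plInf Γ Q = v) :=
  RRgen.exists_placeFin_or_placeInf ℂ (Fan Γ) (WH0 Γ) (BInf Γ) v

/-- the image of `G ∈ WH0 Γ` in the function field -/
abbrev toFan (G : WH0 Γ) : Fan Γ := algebraMap (WH0 Γ) (Fan Γ) G

lemma toFan_ne_zero {G : WH0 Γ} (hG : G ≠ 0) : toFan Γ G ≠ 0 := fun h =>
  hG (IsFractionRing.injective (WH0 Γ) (Fan Γ) (h.trans (map_zero _).symm))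

/-- **the divisor of `f` is divisible by `n`** -/
def NDivF (n : ℕ) (f : Fan Γ) : Prop := ∀ v : Place ℂ (Fan Γ), (n : ℤ) ∣ v.ord f

/-- the divisor of `G ∈ WH0 Γ` is divisible by `n` -/
def NDiv (n : ℕ) (G : WH0 Γ) : Prop := NDivF Γ n (toFan Γ G)

lemma nDivF_iff (n : ℕ) (f : Fan Γ) :
    NDivF Γ n f ↔ (∀ P : HeightOneSpectrum (WH0 Γ), (n : ℤ) ∣ ordV P f) ∧
      (∀ Q : HeightOneSpectrum (BInf Γ), (n : ℤ) ∣ ordV Q f) := by
  constructor
  · intro h
    refine ⟨fun P => ?_, fun Q => ?_⟩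
    · rw [← ord_plFin]
      exact h _
    · rw [← ord_plInf]
      exact h _
  · rintro ⟨h1, h2⟩ v
    rcases exists_plFin_or_plInf Γ v with ⟨P, rfl⟩ | ⟨Q, rfl⟩
    · rw [ord_plFin]
      exact h1 P
    · rw [ord_plInf]
      exact h2 Q

variable {Γ}

/-- **(K3a)** if the orders of `G` at the finite primes are divisible by `n` then so are all the
analytic orders of `G` on `ℍ`. -/
theorem exists_ordAt_eq_mul_of_dvd {h₀ : WH0 Γ} (hs : Wp.Separates Γ h₀)
    (hneg : (-1 : SL(2, ℤ)) ∈ Γ) (htf : TorsionFree Γ) {n : ℕ} {G : WH0 Γ} (hG : G ≠ 0)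
    (h : ∀ P : HeightOneSpectrum (WH0 Γ), (n : ℤ) ∣ ordV P (toFan Γ G)) (z : ℍ) :
    ∃ k : ℕ, Hol.ordAt z (WH0.toHol Γ G) = ((n * k : ℕ) : ℕ∞) := by
  obtain ⟨P, -, hP⟩ := Chart.exists_prime_ordAt_eq (L := Fan Γ) hs hneg htf z
  have h0 : 0 ≤ ordV P (toFan Γ G) := ordV_algebraMap_nonneg (L := Fan Γ) P hG
  obtain ⟨c, hc⟩ := h P
  refine ⟨c.toNat, ?_⟩
  rw [hP G hG]
  congr 1
  show (ordV P (toFan Γ G)).toNat = n * c.toNat
  rw [hc]
  rcases Nat.eq_zero_or_pos n with rfl | hn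
  · simp
  · have hc' : 0 ≤ c := by
      by_contra hlt
      rw [not_le] at hlt
      have : (n : ℤ) * c < 0 := mul_neg_of_pos_of_neg (by exact_mod_cast hn) hlt
      omega
    rw [Int.toNat_mul (by positivity) hc', Int.toNat_natCast]

/-- **(K3a, converse)** if all the analytic orders of `G` on `ℍ` are divisible by `n` then so are
the orders of `G` at the finite primes. -/
theorem dvd_ordV_of_ordAt {h₀ : WH0 Γ} (hs : Wp.Separates Γ h₀)
    (hneg : (-1 : SL(2, ℤ)) ∈ Γ) (htf : TorsionFree Γ) {n : ℕ} {G : WH0 Γ} (hG : G ≠ 0)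
    (h : ∀ z : ℍ, ∃ k : ℕ, Hol.ordAt z (WH0.toHol Γ G) = ((n * k : ℕ) : ℕ∞))
    (P : HeightOneSpectrum (WH0 Γ)) : (n : ℤ) ∣ ordV P (toFan Γ G) := by
  obtain ⟨z, -, hP⟩ := Chart.exists_point_ordAt_eq (L := Fan Γ) hs hneg htf P
  have h0 : 0 ≤ ordV P (toFan Γ G) := ordV_algebraMap_nonneg (L := Fan Γ) P hG
  obtain ⟨k, hk⟩ := h z
  rw [hP G hG] at hk
  have hk' : (ordV P (toFan Γ G)).toNat = n * k := by exact_mod_cast hk
  refine ⟨k, ?_⟩
  have : ((ordV P (toFan Γ G)).toNat : ℤ) = ordV P (toFan Γ G) := Int.toNat_of_nonneg h0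
  rw [← this, hk']
  push_cast
  ring

end Fermat.Agent.S48lib.X1.Kummer
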