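import Mathlib
import Fermat.Agent.ProgramR.QExp.Affine
import Fermat.Agent.S29lib.K3.Cusp
import Fermat.Agent.S48lib.X1.Chart.Cusp

/-!
S48lib / X1 / Kummer / Root (helper9, block P3).

PARAM port of `S29lib/K3/{RootData, Cusp}` (helper6) from `Γ₀(N)` to an arbitrary subgroup
`Γ ≤ SL(2,ℤ)` of level `M` (`hlev : Γ(M) ≤ Γ`): an `n`-th root `y` (holomorphic on `ℍ`) of a weakly
holomorphic `Γ`-invariant function `G`, with its character `χ : Γ → ℂˣ`, and the cusp character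
formula  `χ(g⁻¹ T^s g) = exp(2πi s / (nM)) ^ ord_{q_M}(G ∘ g⁻¹)`.
-/

set_option autoImplicit false
set_option linter.unusedSectionVars false

noncomputable section

namespace Fermat.Agent.S48lib.X1.Kummer

open Fermat.Agent.ProgramR Fermat.Agent.ProgramR.QExp Fermat.Agent.ProgramR.CuspLocal
open Fermat.Agent.S48lib.X1.Chart
open UpperHalfPlane CongruenceSubgroup Function
open scoped MatrixGroups Manifold

local notation "𝕢" => Periodic.qParam

/-- an `n`-th root of `G ∈ WH0 Γ` in the ring of holomorphic functions on `ℍ`, with its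
character -/
structure RootData (Γ : Subgroup SL(2, ℤ)) (n : ℕ) (G : ↥(WH0 Γ)) where
  /-- the root -/
  y : Hol
  pow_eq : y ^ n = WH0.toHol Γ G
  /-- the character -/
  χ : Γ →* ℂˣ
  smul_eq : ∀ (γ : Γ) (z : ℍ),
    (y : ℍ → ℂ) ((γ : SL(2, ℤ)) • z) = ((χ γ : ℂˣ) : ℂ) * (y : ℍ → ℂ) z

namespace RootData

section Basic

variable {Γ : Subgroup SL(2, ℤ)} {n : ℕ} {G : ↥(WH0 Γ)} (R : RootData Γ n G)

lemma pow_apply (z : ℍ) : (R.y : ℍ → ℂ) z ^ n = G.1 z := by
  have := congrArg (fun f : Hol => (f : ℍ → ℂ) z) R.pow_eq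
  simpa using this

lemma exists_G_ne_zero (hG : G ≠ 0) : ∃ z : ℍ, G.1 z ≠ 0 := by
  by_contra h
  rw [not_exists] at h
  apply hG
  apply Subtype.ext
  funext z
  exact not_not.mp (h z)

lemma y_ne_zero (hG : G ≠ 0) (hn : 0 < n) : R.y ≠ 0 := by
  intro h
  apply hG
  apply WH0.toHol_injective
  rw [← R.pow_eq, h, zero_pow hn.ne', map_zero]

/-- the character has exponent `n` -/
lemma χ_pow (hG : G ≠ 0) (γ : Γ) : R.χ γ ^ n = 1 := by
  obtain ⟨z, hz⟩ := exists_G_ne_zero hG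
  have h1 : (R.y : ℍ → ℂ) ((γ : SL(2, ℤ)) • z) ^ n = G.1 ((γ : SL(2, ℤ)) • z) := R.pow_apply _
  rw [R.smul_eq, mul_pow, R.pow_apply, (mem_WH0.mp G.2).smul_eq γ.1 γ.2 z] at h1
  apply Units.ext
  rw [Units.val_pow_eq_pow_val, Units.val_one]
  exact mul_right_cancel₀ hz (h1.trans (one_mul _).symm)

/-- `-1` acts trivially on `ℍ`, hence on the root -/
lemma χ_neg_one (hG : G ≠ 0) (hn : 0 < n) (h1 : (-1 : SL(2, ℤ)) ∈ Γ) :
    R.χ ⟨-1, h1⟩ = 1 := by
  obtain ⟨z, hz⟩ := exists_G_ne_zero hG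
  have hy : (R.y : ℍ → ℂ) z ≠ 0 := by
    intro h
    apply hz
    rw [← R.pow_apply, h, zero_pow hn.ne']
  have h2 := R.smul_eq ⟨-1, h1⟩ z
  have h3 : ((-1 : SL(2, ℤ))) • z = z := by
    rw [ModularGroup.SL_neg_smul, one_smul]
  rw [h3] at h2
  apply Units.ext
  rw [Units.val_one]
  exact (mul_right_cancel₀ hy (h2.symm.trans (one_mul _).symm))

end Basic

section Cusp

variable {Γ : Subgroup SL(2, ℤ)} {M : ℕ} [NeZero M] (hlev : CongruenceSubgroup.Gamma M ≤ Γ)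
  {n : ℕ} {G : ↥(WH0 Γ)} (R : RootData Γ n G)

/-- the translate `z ↦ y (g⁻¹ z)` of the root -/
def trans (g : SL(2, ℤ)) : ℍ → ℂ := slTranslate g (R.y : ℍ → ℂ)

lemma trans_pow (g : SL(2, ℤ)) (z : ℍ) : R.trans g z ^ n = slTranslate g G.1 z := by
  unfold trans
  rw [slTranslate_apply, slTranslate_apply, R.pow_apply]

lemma mdiff_trans (g : SL(2, ℤ)) : MDiff (R.trans g) :=
  mdifferentiable_slTranslate g R.y.2

/-- the transformation of the translate under the stabiliser of the cusp -/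
lemma trans_vadd (g : SL(2, ℤ)) (s : ℤ) (hπ : g⁻¹ * (ModularGroup.T ^ s * g) ∈ Γ)
    (z : ℍ) : R.trans g ((s : ℝ) +ᵥ z) = ((R.χ ⟨_, hπ⟩ : ℂˣ) : ℂ) * R.trans g z := by
  have h1 : g⁻¹ • ((s : ℝ) +ᵥ z) = (g⁻¹ * (ModularGroup.T ^ s * g)) • (g⁻¹ • z) := by
    rw [← modular_T_zpow_smul, mul_smul, mul_smul, smul_inv_smul]
  unfold trans
  rw [slTranslate_apply, h1]
  exact R.smul_eq ⟨_, hπ⟩ _

include hlev in
/-- iterating the translation by `M` -/
lemma trans_vadd_mul_M (g : SL(2, ℤ)) (k : ℕ) (z : ℍ) :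
    R.trans g (((k : ℝ) * (M : ℝ)) +ᵥ z) =
      ((R.χ ⟨_, conj_T_zpow_mem hlev g⟩ : ℂˣ) : ℂ) ^ k * R.trans g z := by
  induction k with
  | zero => simp
  | succ k ih =>
    have e : (((k + 1 : ℕ) : ℝ) * (M : ℝ)) +ᵥ z = ((M : ℤ) : ℝ) +ᵥ (((k : ℝ) * (M : ℝ)) +ᵥ z) := by
      rw [vadd_vadd]
      congr 1
      push_cast
      ring
    rw [e, R.trans_vadd g (M : ℤ) (conj_T_zpow_mem hlev g), ih, pow_succ]
    ring

include hlev in
/-- the translate has period `nM` -/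
lemma trans_periodic (hG : G ≠ 0) (g : SL(2, ℤ)) :
    Periodic (R.trans g ∘ ofComplex) (((n : ℝ) * (M : ℝ) : ℝ) : ℂ) := by
  apply periodic_comp_ofComplex_of_vadd
  intro τ
  rw [R.trans_vadd_mul_M hlev g n τ, ← Units.val_pow_eq_pow_val, R.χ_pow hG, Units.val_one,
    one_mul]

include hlev in
/-- the translate is meromorphic at `i∞` with respect to the period `nM` -/
lemma exists_isMeroAtInfty_trans (hG : G ≠ 0) (hn : 0 < n) (g : SL(2, ℤ)) :
    ∃ m, IsMeroAtInfty ((n : ℝ) * (M : ℝ)) m (R.trans g) := by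
  obtain ⟨m, hm⟩ := exists_isMeroAtInfty_slTranslate (mem_WH0.mp G.2) g (NeZero.pos M)
    (conj_T_zpow_mem hlev g)
  refine ⟨m, R.mdiff_trans g, R.trans_periodic hlev hG g, ?_⟩
  apply S29lib.K3.isBoundedAtImInfty_of_pow hn
  have e : (fun z : ℍ => (qPow ((n : ℝ) * (M : ℝ)) m * R.trans g) z ^ n) =
      qPow (M : ℝ) m * slTranslate g G.1 := by
    funext z
    simp only [Pi.mul_apply, qPow_apply]
    rw [mul_pow, R.trans_pow, ← pow_mul, mul_comm m n, pow_mul,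
      ← qParam_eq_pow_qParam_mul (M : ℝ) (natCast_pos_real M).ne' n hn.ne']
  rw [e]
  exact hm.bdd

/-- **cusp character formula** -/
theorem χ_cusp (hG : G ≠ 0) (hn : 0 < n) (g : SL(2, ℤ)) (s : ℤ)
    (hπ : g⁻¹ * (ModularGroup.T ^ s * g) ∈ Γ) :
    ((R.χ ⟨_, hπ⟩ : ℂˣ) : ℂ) =
      twistFactor ((n : ℝ) * (M : ℝ)) (s : ℝ) ^ (Chart.cuspExp hlev g G).order := by
  have : NeZero n := ⟨hn.ne'⟩
  have hN : (0 : ℝ) < (M : ℝ) := natCast_pos_real M
  have hh : (0 : ℝ) < (n : ℝ) * (M : ℝ) := mul_pos (by exact_mod_cast hn) hN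
  obtain ⟨m, hm⟩ := R.exists_isMeroAtInfty_trans hlev hG hn g
  obtain ⟨m', hm'⟩ := exists_isMeroAtInfty_slTranslate (mem_WH0.mp G.2) g (NeZero.pos M)
    (conj_T_zpow_mem hlev g)
  set H : ℍ → ℂ := R.trans g with hH
  set L : LaurentSeries ℂ := laurentExp ((n : ℝ) * (M : ℝ)) H with hL
  -- `L ^ n` is the expansion of `G ∘ g⁻¹` with respect to the period `nM`
  have hpow : L ^ n = ModularCurve.qExpand ℂ n (Chart.cuspExp hlev g G) := by
    have h1 : (⟨H, m, hm⟩ : merRing ((n : ℝ) * (M : ℝ)) hh) ^ n =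
        ⟨slTranslate g G.1, n * m', isMeroAtInfty_period_mul hN hn hm'⟩ := by
      apply Subtype.ext
      funext z
      simp only [SubmonoidClass.coe_pow, Pi.pow_apply]
      exact R.trans_pow g z
    have h2 := congrArg (laurentExpHom ((n : ℝ) * (M : ℝ)) hh) h1
    rw [map_pow, laurentExpHom_apply, laurentExpHom_apply] at h2
    rw [hL, h2, Chart.cuspExp_apply]
    exact laurentExp_period_mul hN hm'
  have hG' : cuspExp hlev g G ≠ 0 :=
    fun h => hG (Chart.cuspExp_injective hlev g (h.trans (map_zero _).symm))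
  have hLn : L ^ n ≠ 0 := by
    rw [hpow]
    exact fun h => hG' (ModularCurve.qExpand_injective n (by rw [h, map_zero]))
  have hL0 : L ≠ 0 := fun h => hLn (by rw [h, zero_pow hn.ne'])
  have hord : L.order = (Chart.cuspExp hlev g G).order := by
    have h1 : (L ^ n).order = n • L.order := HahnSeries.order_pow L n
    rw [hpow, S29lib.K3.order_qExpand_eq, nsmul_eq_mul] at h1
    have hn' : (n : ℤ) ≠ 0 := by exact_mod_cast hn.ne'
    exact (mul_left_cancel₀ hn' h1).symm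
  -- the translate by `s`
  set c : ℂ := ((R.χ ⟨_, hπ⟩ : ℂˣ) : ℂ) with hc
  have htw := laurentExp_coeff_of_vadd hh hm
    (f' := fun τ => H ((s : ℝ) +ᵥ τ))
    (by
      have : (fun τ : ℍ => H ((s : ℝ) +ᵥ τ)) = fun τ => c * H τ := by
        funext τ
        exact R.trans_vadd g s hπ τ
      rw [this]
      exact (mdifferentiable_const (c := c)).mul (R.mdiff_trans g))
    (s : ℝ) (fun τ => rfl)
  have hcH : (fun τ : ℍ => H ((s : ℝ) +ᵥ τ)) = (fun _ : ℍ => c) * H := by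
    funext τ
    exact R.trans_vadd g s hπ τ
  have hexp : laurentExp ((n : ℝ) * (M : ℝ)) (fun τ : ℍ => H ((s : ℝ) +ᵥ τ)) =
      HahnSeries.C c * L := by
    rw [hcH, laurentExp_mul hh (IsMeroAtInfty.of_isHolPerBdd (IsHolPerBdd.const _ c)) hm,
      laurentExp_const hh]
  have hcoeff := htw.2 L.order
  rw [hexp, HahnSeries.C_mul_eq_smul, HahnSeries.coeff_smul, smul_eq_mul] at hcoeff
  have hne : L.coeff L.order ≠ 0 := fun h => hL0 (HahnSeries.coeff_order_eq_zero.mp h)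
  rw [← hord]
  exact mul_right_cancel₀ hne hcoeff

end Cusp

end RootData

end Fermat.Agent.S48lib.X1.Kummer
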