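import Mathlib
import Fermat.Agent.ProgramR.ES.Parabolic
import Fermat.Agent.ProgramR.ES.ParabolicDim
import Fermat.Agent.S29lib.K3.CuspDiv
import Fermat.Agent.S48lib.X1.Kummer.Root
import Fermat.Agent.S48lib.X1.Kummer.Curve

/-!
S48lib / X1 / Kummer / CuspDiv (helper9, block P3).

PARAM port of `S29lib/K3/CuspDiv` (helper6) from `Γ₀(N)` to an arbitrary subgroup `Γ ≤ SL(2,ℤ)` of
finite index and level `M` containing `-1`, with a separating function: for a root datum `(y, χ)`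
of `G ∈ WH0 Γ`, `χ` kills the parabolic elements of `Γ` if and only if the orders of `G` at all the
primes of the chart at infinity are divisible by `n`.
-/

set_option autoImplicit false
set_option linter.unusedSectionVars false

noncomputable section

namespace Fermat.Agent.S48lib.X1.Kummer

open Fermat.Agent.ProgramR Fermat.Agent.ProgramR.QExp Fermat.Agent.ProgramR.CuspLocal
open Fermat.Agent.ProgramR.RR Fermat.Agent.ProgramR.Alg Fermat.Agent.ProgramR.ES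
open Fermat.Agent.S48lib.X1.Chart
open UpperHalfPlane CongruenceSubgroup Function IsDedekindDomain Matrix
open scoped MatrixGroups Manifold Real

namespace RootData

variable {Γ : Subgroup SL(2, ℤ)} [Fintype (SL(2, ℤ) ⧸ Γ)] [Γ.FiniteIndex] {M : ℕ} [NeZero M]
  (hlev : CongruenceSubgroup.Gamma M ≤ Γ) {h₀ : WH0 Γ} (hs : Wp.Separates Γ h₀)
  {n : ℕ} {G : ↥(WH0 Γ)} (R : RootData Γ n G)

omit [Fintype (SL(2, ℤ) ⧸ Γ)] [Γ.FiniteIndex] in
/-- the character at the generator of the stabiliser of a cusp, in terms of the order of `G` at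
the corresponding prime of the chart at infinity -/
lemma χ_cusp_eq_one_iff (hG : G ≠ 0) (hn : 0 < n) (g : SL(2, ℤ)) (s : ℤ)
    (hπ : g⁻¹ * (ModularGroup.T ^ s * g) ∈ Γ) :
    R.χ ⟨_, hπ⟩ = 1 ↔ ((n * M : ℕ) : ℤ) ∣ s * (Chart.cuspExp hlev g G).order := by
  have h1 := R.χ_cusp hlev hG hn g s hπ
  have hM : n * M ≠ 0 := Nat.mul_ne_zero hn.ne' (NeZero.ne M)
  have h2 := S29lib.K3.twistFactor_zpow_eq_one_iff' (n * M) hM s (Chart.cuspExp hlev g G).order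
  have e : (((n * M : ℕ) : ℝ)) = (n : ℝ) * (M : ℝ) := by push_cast; ring
  rw [e, ← h1] at h2
  rw [← h2]
  constructor
  · intro h
    rw [h, Units.val_one]
  · intro h
    exact Units.ext h

/-- if `n ∣ ord_Q G` then `χ` is trivial on the stabiliser of the cusp `Q` -/
lemma χ_cusp_eq_one_of_dvd (hG : G ≠ 0) (hn : 0 < n) (g : SL(2, ℤ)) (s : ℤ)
    (hπ : g⁻¹ * (ModularGroup.T ^ s * g) ∈ Γ)
    (hdvd : (n : ℤ) ∣ ordV (gammaCuspPrime hlev hs (QuotientGroup.mk g)) (toFan Γ G)) :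
    R.χ ⟨_, hπ⟩ = 1 := by
  rw [R.χ_cusp_eq_one_iff hlev hG hn g s hπ, order_cuspExp_Gamma hlev hs g hG]
  have hw : (Chart.width Γ (QuotientGroup.mk g : SL(2, ℤ) ⧸ Γ) : ℤ) ∣ s := by
    rw [← Chart.T_zpow_smul_eq_iff_width_dvd, Chart.T_zpow_smul_mk_eq_iff]
    exact hπ
  set w := Chart.width Γ (QuotientGroup.mk g : SL(2, ℤ) ⧸ Γ) with hwdef
  obtain ⟨s', hs'⟩ := hw
  obtain ⟨o', ho'⟩ := hdvd
  obtain ⟨d, hd⟩ := Chart.width_dvd hlev (QuotientGroup.mk g : SL(2, ℤ) ⧸ Γ)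
  have hwpos : 0 < w := Chart.width_pos hlev _
  have hdiv : M / w = d := by rw [hd, Nat.mul_div_cancel_left d hwpos]
  rw [hdiv, ho', hs']
  refine ⟨s' * o', ?_⟩
  have hN : (M : ℤ) = (w : ℤ) * (d : ℤ) := by exact_mod_cast hd
  push_cast
  rw [hN]
  ring

/-- if `χ` is trivial on the generator of the stabiliser of the cusp `Q` then `n ∣ ord_Q G` -/
lemma dvd_of_χ_cusp_eq_one (hG : G ≠ 0) (hn : 0 < n) (g : SL(2, ℤ))
    (h : ∀ hπ : g⁻¹ * (ModularGroup.T ^ ((Chart.width Γ (QuotientGroup.mk g : SL(2, ℤ) ⧸ Γ) : ℕ) : ℤ)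
      * g) ∈ Γ, R.χ ⟨_, hπ⟩ = 1) :
    (n : ℤ) ∣ ordV (gammaCuspPrime hlev hs (QuotientGroup.mk g)) (toFan Γ G) := by
  set w := Chart.width Γ (QuotientGroup.mk g : SL(2, ℤ) ⧸ Γ) with hwdef
  have hπ : g⁻¹ * (ModularGroup.T ^ ((w : ℕ) : ℤ) * g) ∈ Γ := by
    rw [← Chart.T_zpow_smul_mk_eq_iff, zpow_natCast]
    exact Chart.T_pow_width_smul Γ _
  have h1 := (R.χ_cusp_eq_one_iff hlev hG hn g (w : ℤ) hπ).mp (h hπ)
  rw [order_cuspExp_Gamma hlev hs g hG, ← hwdef] at h1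
  obtain ⟨d, hd⟩ := Chart.width_dvd hlev (QuotientGroup.mk g : SL(2, ℤ) ⧸ Γ)
  have hwpos : 0 < w := Chart.width_pos hlev _
  have hdiv : M / w = d := by rw [hd, Nat.mul_div_cancel_left d hwpos]
  rw [hdiv] at h1
  have hN : (M : ℤ) = (w : ℤ) * (d : ℤ) := by exact_mod_cast hd
  have hN0 : (M : ℤ) ≠ 0 := by exact_mod_cast NeZero.ne M
  obtain ⟨r, hr⟩ := h1
  refine ⟨r, ?_⟩
  apply mul_left_cancel₀ hN0
  push_cast at hr
  rw [hN] at hr ⊢
  linear_combination hr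

include hlev hs in
/-- **(K3b ⇐, cusps)** if the divisor of `G` at infinity is divisible by `n` then `χ` kills the
parabolic elements -/
theorem χ_eq_one_of_isPar (hneg : (-1 : SL(2, ℤ)) ∈ Γ) (hG : G ≠ 0) (hn : 0 < n)
    (hdvd : ∀ Q : HeightOneSpectrum (BInf Γ), (n : ℤ) ∣ ordV Q (toFan Γ G))
    (γ : Γ) (hγ : IsPar (γ : SL(2, ℤ))) : R.χ γ = 1 := by
  obtain ⟨g, s, h | h⟩ := S29lib.K3.exists_eq_conj_T_zpow_of_isPar _ hγ
  · have hπ : g⁻¹ * (ModularGroup.T ^ s * g) ∈ Γ := h ▸ γ.2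
    have e : γ = ⟨_, hπ⟩ := Subtype.ext h
    rw [e]
    exact R.χ_cusp_eq_one_of_dvd hlev hs hG hn g s hπ (hdvd _)
  · have hπ : g⁻¹ * (ModularGroup.T ^ s * g) ∈ Γ := by
      have h2 : g⁻¹ * (ModularGroup.T ^ s * g) = (-1 : SL(2, ℤ)) * γ := by
        rw [h]
        simp
      rw [h2]
      exact Γ.mul_mem hneg γ.2
    have e : γ = ⟨-1, hneg⟩ * ⟨_, hπ⟩ := by
      apply Subtype.ext
      rw [h]
      simp
    rw [e, map_mul, R.χ_neg_one hG hn hneg, one_mul]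
    exact R.χ_cusp_eq_one_of_dvd hlev hs hG hn g s hπ (hdvd _)

include hlev hs in
/-- **(K3b ⇒, cusps)** if `χ` kills the parabolic elements then the divisor of `G` at infinity is
divisible by `n` -/
theorem dvd_ordV_inf_of_χ (hG : G ≠ 0) (hn : 0 < n)
    (hχ : ∀ γ : Γ, IsPar (γ : SL(2, ℤ)) → R.χ γ = 1)
    (Q : HeightOneSpectrum (BInf Γ)) : (n : ℤ) ∣ ordV Q (toFan Γ G) := by
  obtain ⟨g, hg⟩ := exists_gammaCuspPrime_eq hlev hs Q
  rw [← hg]
  refine R.dvd_of_χ_cusp_eq_one hlev hs hG hn g (fun hπ => hχ _ ?_)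
  show IsPar (g⁻¹ * (ModularGroup.T ^ _ * g))
  rw [← mul_assoc, zpow_natCast]
  exact isPar_conj _ g (isPar_T_pow _)

end RootData

end Fermat.Agent.S48lib.X1.Kummer
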