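import Mathlib
import Fermat.Agent.S29lib.K1.KummerRel
import Fermat.Agent.S29lib.K1.Const
import Fermat.Agent.S29lib.K3.EllipticCoprime
import Fermat.Agent.S29lib.K3.Torsion
import Fermat.Agent.S16lib.LG.Shimura
import Fermat.Agent.S48lib.X1.Kummer.CuspDiv

/-!
S48lib / X1 / Kummer / Glue (helper9, block P3).

PARAM port of `S29lib/K3/Glue` (helper6) from `Γ₀(N)` to a subgroup `Γ ≤ SL(2,ℤ)` of finite index
and level `M`, containing `-1`, with a separating function and acting freely modulo `±1` on `ℍ`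
(`Chart.TorsionFree Γ`; e.g. `±Γ₁(M)`, `M ≥ 4`): the inputs (a)–(d) of `K1.exists_kummerEquiv` for
the analytic curve `Fan Γ / ℂ`, the Kummer relation `K1.IsKum Γ n` and the subgroup `charSub Γ n` of
the characters of exponent `n` killing the parabolic and the finite order elements.

The only input left abstract is the ANALYTIC surjectivity `HRoot Γ n` (every character in
`charSub Γ n` is the multiplier of an `n`-th root of a non-zero `G ∈ WH0 Γ`; twisted Eisenstein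
series, `Kummer/Eis*`):

* `exists_kummerEquivAn : HRoot Γ n → ∃ κ : Pic⁰(Fan Γ)[n] ≃+ Additive (charSub Γ n), PicRel …`.
-/

set_option autoImplicit false
set_option linter.unusedSectionVars false

noncomputable section

namespace Fermat.Agent.S48lib.X1.Kummer

open Fermat.Agent.ProgramR Fermat.Agent.ProgramR.RR Fermat.Agent.ProgramR.Alg
open Fermat.Agent.ProgramR.ES Fermat.Agent.S16lib.LG Fermat.Agent.S29lib
open Fermat.Agent.S48lib.X1.Chart
open AlgebraicCurve UpperHalfPlane CongruenceSubgroup IsDedekindDomain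
open scoped Manifold MatrixGroups

/-- the characters of `Γ` of exponent `n` killing the parabolic and the finite order elements -/
def charSub (Γ : Subgroup SL(2, ℤ)) (n : ℕ) : Subgroup (Γ →* ℂˣ) where
  carrier := {χ | (∀ γ, χ γ ^ n = 1) ∧ ∀ γ : Γ, IsParTor (γ : SL(2, ℤ)) → χ γ = 1}
  one_mem' := ⟨fun _ => by simp, fun _ _ => rfl⟩
  mul_mem' := by
    rintro χ χ' ⟨h1, h2⟩ ⟨h1', h2'⟩
    refine ⟨fun γ => ?_, fun γ hγ => ?_⟩
    · rw [MonoidHom.mul_apply, mul_pow, h1, h1', one_mul]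
    · rw [MonoidHom.mul_apply, h2 γ hγ, h2' γ hγ, one_mul]
  inv_mem' := by
    rintro χ ⟨h1, h2⟩
    refine ⟨fun γ => ?_, fun γ hγ => ?_⟩
    · rw [MonoidHom.inv_apply, inv_pow, h1, inv_one]
    · rw [MonoidHom.inv_apply, h2 γ hγ, inv_one]

lemma mem_charSub {Γ : Subgroup SL(2, ℤ)} {n : ℕ} {χ : Γ →* ℂˣ} :
    χ ∈ charSub Γ n ↔ (∀ γ, χ γ ^ n = 1) ∧
      ∀ γ : Γ, IsParTor (γ : SL(2, ℤ)) → χ γ = 1 := Iff.rfl

/-- **the analytic input**: every character in `charSub Γ n` is the multiplier of an `n`-th root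
(holomorphic on `ℍ`) of a non-zero element of `WH0 Γ` (twisted Eisenstein series). -/
def HRoot (Γ : Subgroup SL(2, ℤ)) (n : ℕ) : Prop :=
  ∀ χ : Γ →* ℂˣ, χ ∈ charSub Γ n →
    ∃ (G : WH0 Γ) (y : Hol), G ≠ 0 ∧ y ^ n = WH0.toHol Γ G ∧ K1.Transforms Γ y χ

variable (Γ : Subgroup SL(2, ℤ)) [Fintype (SL(2, ℤ) ⧸ Γ)]

/-- **(a)** the functions without zeros and poles are the constants -/
theorem hconstAn (f : Fan Γ) (hf : f ≠ 0) (h : ∀ v : Place ℂ (Fan Γ), v.ord f = 0) :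
    ∃ c : ℂ, algebraMap ℂ (Fan Γ) c = f :=
  K1.const_of_ord_eq_zero (isCurveAn Γ) f hf h

instance hasPrincipalDivisorsAn : HasPrincipalDivisors ℂ (Fan Γ) :=
  (isCurveAn Γ).hasPrincipalDivisors

/-- the divisor of `f * b ^ n` is divisible by `n` if the divisor of `f` is -/
lemma nDivF_mul_pow {n : ℕ} {f : Fan Γ} (hf : f ≠ 0) (h : NDivF Γ n f) {b : Fan Γ} (hb : b ≠ 0) :
    NDivF Γ n (f * b ^ n) := by
  intro v
  rw [v.ord_mul hf (pow_ne_zero _ hb)]
  have h1 : v.ord (b ^ n) = n * v.ord b := by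
    have := v.ord_zpow b (n : ℤ)
    rwa [zpow_natCast] at this
  rw [h1]
  exact dvd_add (h v) (dvd_mul_right _ _)

variable {Γ}

/-- the root datum of a Kummer datum -/
def rootDataOfIsKum {n : ℕ} {G : WH0 Γ} {y : Hol} {χ : Γ →* ℂˣ}
    (hy : y ^ n = WH0.toHol Γ G) (ht : K1.Transforms Γ y χ) :
    RootData Γ n G where
  y := y
  pow_eq := hy
  χ := χ
  smul_eq := ht.apply

section Main

variable [Γ.FiniteIndex] {M : ℕ} [NeZero M] (hlev : CongruenceSubgroup.Gamma M ≤ Γ)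
  {h₀ : WH0 Γ} (hs : Wp.Separates Γ h₀) (hneg : (-1 : SL(2, ℤ)) ∈ Γ) (htf : TorsionFree Γ)

include hs hneg htf in
/-- **(b)** the dictionary: divisor divisible by `n` ⇒ orders on `ℍ` divisible by `n` -/
theorem hdictAn {n : ℕ} (hn : 0 < n) (f : Fan Γ) (hf : f ≠ 0)
    (h : ∀ v : Place ℂ (Fan Γ), (n : ℤ) ∣ v.ord f) : K1.HDiv Γ n f := by
  obtain ⟨a, b, hb, hab⟩ := IsFractionRing.div_surjective (A := WH0 Γ) f
  have hb0 : b ≠ 0 := nonZeroDivisors.ne_zero hb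
  have hb' : algebraMap (WH0 Γ) (Fan Γ) b ≠ 0 := toFan_ne_zero Γ hb0
  obtain ⟨k, rfl⟩ : ∃ k, n = k + 1 := ⟨n - 1, by omega⟩
  have hG : algebraMap (WH0 Γ) (Fan Γ) (a * b ^ k) =
      f * (algebraMap (WH0 Γ) (Fan Γ) b) ^ (k + 1) := by
    rw [← hab, map_mul, map_pow, pow_succ]
    field_simp
  have ha0 : a * b ^ k ≠ 0 := by
    intro h0
    rw [h0, map_zero] at hG
    exact (mul_ne_zero hf (pow_ne_zero _ hb')) hG.symm
  refine ⟨a * b ^ k, b, hb0, hG, fun z => ?_⟩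
  apply exists_ordAt_eq_mul_of_dvd hs hneg htf ha0
  have hND : NDivF Γ (k + 1) (algebraMap (WH0 Γ) (Fan Γ) (a * b ^ k)) := by
    rw [hG]
    exact nDivF_mul_pow Γ hf h hb'
  exact ((nDivF_iff Γ _ _).mp hND).1

include hs hneg htf in
/-- the Kummer relation of `Γ` on the analytic function field satisfies the abstract axioms -/
theorem kummerRelAn {n : ℕ} (hn : 0 < n) :
    K1.KummerRel ℂ (Fan Γ) n (K1.IsKum Γ n (F := Fan Γ)) :=
  K1.isKum_kummerRel Γ hn (hdictAn hs hneg htf hn)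

include hneg htf in
/-- under `TorsionFree`, a character trivial at `-1` kills the finite order elements. -/
lemma χ_eq_one_of_pow_twelve {n : ℕ} {G : WH0 Γ} (R : RootData Γ n G) (hG : G ≠ 0) (hn : 0 < n)
    (γ : Γ) (hγ : (γ : SL(2, ℤ)) ^ 12 = 1) : R.χ γ = 1 := by
  have key : (γ : SL(2, ℤ)) = 1 ∨ (γ : SL(2, ℤ)) = -1 := by
    rcases K3.exists_fixed_point_of_pow_twelve _ hγ with h | h | ⟨z, hz⟩
    · exact Or.inl h
    · exact Or.inr h
    · exact htf _ γ.2 z hz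
  rcases key with h | h
  · have : γ = 1 := Subtype.ext h
    rw [this, map_one]
  · have : γ = ⟨-1, hneg⟩ := Subtype.ext h
    rw [this]
    exact R.χ_neg_one hG hn hneg

include hlev hs hneg htf in
/-- **(c)** the Kummer character of a function with divisor divisible by `n` lies in `charSub` -/
theorem hYAn {n : ℕ} (hn : 0 < n) (f : Fan Γ) (χ : Γ →* ℂˣ)
    (hf : f ≠ 0) (h : ∀ v : Place ℂ (Fan Γ), (n : ℤ) ∣ v.ord f)
    (hK : K1.IsKum Γ n f χ) : χ ∈ charSub Γ n := by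
  obtain ⟨G, b, y, hb, hG, hGf, hy, ht⟩ := hK
  set R : RootData Γ n G := rootDataOfIsKum hy ht with hR
  have hb' : algebraMap (WH0 Γ) (Fan Γ) b ≠ 0 := toFan_ne_zero Γ hb
  have hND : NDivF Γ n (toFan Γ G) := by
    show NDivF Γ n (algebraMap (WH0 Γ) (Fan Γ) G)
    rw [hGf]
    exact nDivF_mul_pow Γ hf h hb'
  obtain ⟨hfin, hinf⟩ := (nDivF_iff Γ n _).mp hND
  refine ⟨fun γ => R.χ_pow hG γ, fun γ hγ => ?_⟩
  rcases hγ with hpar | htor
  · exact R.χ_eq_one_of_isPar hlev hs hneg hG hn hinf γ hpar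
  · exact χ_eq_one_of_pow_twelve hneg htf R hG hn γ htor

include hs hneg htf in
/-- the existence of an `n`-th root on `ℍ` forces the divisor of `G` on the finite chart to be
divisible by `n` -/
theorem dvd_ordV_fin {n : ℕ} {G : WH0 Γ} (R : RootData Γ n G) (hG : G ≠ 0) (hn : 0 < n)
    (P : HeightOneSpectrum (WH0 Γ)) : (n : ℤ) ∣ ordV P (toFan Γ G) := by
  apply dvd_ordV_of_ordAt hs hneg htf hG
  intro z
  rw [← R.pow_eq, K3.Hol_ordAt_pow]
  have hy : Hol.ordAt z R.y ≠ ⊤ := by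
    rw [Ne, Hol.ordAt_eq_top_iff]
    exact R.y_ne_zero hG hn
  obtain ⟨m, hm⟩ := ENat.ne_top_iff_exists.1 hy
  refine ⟨m, ?_⟩
  rw [← hm]
  simp

include hlev hs hneg htf in
/-- **(d)** every character in `charSub` is the Kummer character of a function with divisor
divisible by `n` (given the analytic input `HRoot`) -/
theorem hsurjAn {n : ℕ} (hn : 0 < n) (hroot : HRoot Γ n) (χ : Γ →* ℂˣ)
    (hχ : χ ∈ charSub Γ n) :
    ∃ f : Fan Γ, f ≠ 0 ∧ (∀ v : Place ℂ (Fan Γ), (n : ℤ) ∣ v.ord f) ∧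
      K1.IsKum Γ n f χ := by
  obtain ⟨G, y, hG, hy, ht⟩ := hroot χ hχ
  obtain ⟨hχn, hkill⟩ := hχ
  set R : RootData Γ n G := rootDataOfIsKum hy ht with hR
  refine ⟨toFan Γ G, toFan_ne_zero Γ hG, ?_, ?_⟩
  · rw [← NDivF, nDivF_iff]
    refine ⟨dvd_ordV_fin hs hneg htf R hG hn,
      R.dvd_ordV_inf_of_χ hlev hs hG hn (fun γ hγ => hkill γ (Or.inl hγ))⟩
  · refine ⟨G, 1, y, one_ne_zero, hG, ?_, hy, ht⟩
    rw [map_one, one_pow, mul_one]

include hlev hs hneg htf in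
/-- **the analytic Kummer isomorphism** `Pic⁰(Fan Γ)[n] ≃ charSub Γ n` -/
theorem exists_kummerEquivAn {n : ℕ} (hn : 0 < n) (hroot : HRoot Γ n) :
    ∃ κ : Pic0.torsion ℂ (Fan Γ) n ≃+ Additive (charSub Γ n),
      ∀ x : Pic0.torsion ℂ (Fan Γ) n,
        K1.PicRel ℂ n (K1.IsKum Γ n (F := Fan Γ)) (x : Pic0 ℂ (Fan Γ))
          ((Additive.toMul (κ x) : charSub Γ n) : Γ →* ℂˣ) :=
  K1.exists_kummerEquiv (hconstAn Γ) (kummerRelAn hs hneg htf hn) hn (charSub Γ n)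
    (hYAn hlev hs hneg htf hn) (hsurjAn hlev hs hneg htf hn hroot)

end Main

end Fermat.Agent.S48lib.X1.Kummer
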