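import Mathlib
import Fermat.Agent.S29lib.K2.ParTor
import Fermat.Agent.S29lib.K3.EllipticGen
import Fermat.Agent.S48lib.X1.Kummer.Eis
import Fermat.Agent.S48lib.X1.Kummer.Glue
import Fermat.Agent.S48lib.X1.Wp.Sep

/-!
S48lib / X1 / Kummer / Main (helper9, block P3).

* `hRoot` : the analytic input `HRoot Γ n` (twisted Eisenstein series), for every `Γ ∋ -1`;
* `torsionFree_pmGamma1` : `±Γ₁(M)` acts freely modulo `±1` on `ℍ` for `M ≥ 4`;
* **`exists_kummerEquiv_pmGamma1`** : the analytic Kummer isomorphism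
  `Pic⁰(Frac WH0 ±Γ₁(M))[n] ≃+ Additive (charSub (±Γ₁(M)) n)`, `M ≥ 4`, `n > 0`.
-/

set_option autoImplicit false
set_option linter.unusedSectionVars false

noncomputable section

namespace Fermat.Agent.S48lib.X1.Kummer

open Fermat.Agent.ProgramR Fermat.Agent.S29lib Fermat.Agent.S48lib.X1.Chart
open AlgebraicCurve UpperHalfPlane CongruenceSubgroup
open scoped MatrixGroups

/-- **the analytic input** (twisted Eisenstein series of weight 4) -/
theorem hRoot {Γ : Subgroup SL(2, ℤ)} (hneg : (-1 : SL(2, ℤ)) ∈ Γ) {n : ℕ} (hn : 0 < n) :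
    HRoot Γ n := by
  intro χ hχ
  obtain ⟨hχn, hkill⟩ := hχ
  have hχ0 : ∀ γ : Γ, (γ : SL(2, ℤ)) 1 0 = 0 → χ γ = 1 := fun γ h0 =>
    hkill γ (Or.inl (K2.isPar_of_apply_one_zero _ h0))
  refine ⟨Eis.gChi χ hn.ne' hχn hχ0, Eis.yChi χ (Eis.norm_eq_one_of_pow_eq_one hn.ne' hχn),
    Eis.gChi_ne_zero hneg hn.ne' hχn hχ0, (Eis.toHol_gChi hn.ne' hχn hχ0).symm,
    K1.Transforms.of_apply (fun γ z => Eis.yChi_smul _ hχ0 γ z)⟩

/-- an element of `SL(2,ℤ)` with `γ ^ 12 = 1` is `±1` or has trace `0, ±1`. -/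
theorem eq_or_trace_of_pow_twelve (γ : SL(2, ℤ)) (h : γ ^ 12 = 1) :
    γ = 1 ∨ γ = -1 ∨ (γ 0 0 + γ 1 1 = 0 ∨ γ 0 0 + γ 1 1 = 1 ∨ γ 0 0 + γ 1 1 = -1) := by
  set A : Matrix (Fin 2) (Fin 2) ℤ := (γ : Matrix (Fin 2) (Fin 2) ℤ) with hAdef
  have hdet : A.det = 1 := γ.det_coe
  have hdet' : A 0 0 * A 1 1 - A 0 1 * A 1 0 = 1 := by
    rw [← Matrix.det_fin_two]
    exact hdet
  have hA12 : A ^ 12 = 1 := by
    have := congrArg (fun g : SL(2, ℤ) => (g : Matrix (Fin 2) (Fin 2) ℤ)) h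
    simpa using this
  have hP := K3.pow_succ_eq_chebP A hdet 11
  rw [hA12] at hP
  have htr : A.trace = A 0 0 + A 1 1 := Matrix.trace_fin_two A
  set t : ℤ := A.trace with ht
  have e00 := congrFun (congrFun hP 0) 0
  have e01 := congrFun (congrFun hP 0) 1
  have e10 := congrFun (congrFun hP 1) 0
  have e11 := congrFun (congrFun hP 1) 1
  simp only [Matrix.sub_apply, Matrix.smul_apply, Matrix.one_apply_eq, smul_eq_mul, mul_one,
    Matrix.one_apply_ne (show (0 : Fin 2) ≠ 1 by decide),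
    Matrix.one_apply_ne (show (1 : Fin 2) ≠ 0 by decide), mul_zero, sub_zero] at e00 e01 e10 e11
  by_cases hp : K3.chebP t 12 = 0
  · right; right
    have htc := K3.trace_cases_of_chebP_twelve_eq_zero hp
    rw [htr] at htc
    exact htc
  · -- `γ` is scalar
    have hb : A 0 1 = 0 := by
      rcases mul_eq_zero.mp e01.symm with h0 | h0
      · exact absurd h0 hp
      · exact h0
    have hc : A 1 0 = 0 := by
      rcases mul_eq_zero.mp e10.symm with h0 | h0
      · exact absurd h0 hp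
      · exact h0
    have had : A 0 0 = A 1 1 := by
      have : K3.chebP t 12 * (A 0 0 - A 1 1) = 0 := by linear_combination e11 - e00
      rcases mul_eq_zero.mp this with h0 | h0
      · exact absurd h0 hp
      · linarith
    rw [hb, zero_mul, sub_zero, ← had] at hdet'
    rcases Int.eq_one_or_neg_one_of_mul_eq_one' hdet' with ⟨h1, -⟩ | ⟨h1, -⟩
    · left
      ext i j
      have h11 : A 1 1 = 1 := by rw [← had]; exact h1
      fin_cases i <;> fin_cases j
      · simpa using h1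
      · simpa using hb
      · simpa using hc
      · simpa using h11
    · right; left
      ext i j
      have h11 : A 1 1 = -1 := by rw [← had]; exact h1
      fin_cases i <;> fin_cases j
      · simpa using h1
      · simpa using hb
      · simpa using hc
      · simpa using h11

/-- **`±Γ₁(M)` acts freely modulo `±1` on `ℍ` for `M ≥ 4`.** -/
theorem torsionFree_pmGamma1 {M : ℕ} (hM : 4 ≤ M) : TorsionFree (Wp.pmGamma1 M) := by
  intro γ hγ z hz
  have h12 : γ ^ 12 = 1 := K3.pow_twelve_eq_one_of_fixed hz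
  rcases eq_or_trace_of_pow_twelve γ h12 with h | h | htr
  · exact Or.inl h
  · exact Or.inr h
  · exfalso
    rw [Wp.mem_pmGamma1_iff_dvd] at hγ
    obtain ⟨hc, hd⟩ := hγ
    have hdet : γ 0 0 * γ 1 1 - γ 0 1 * γ 1 0 = 1 := by
      have := γ.det_coe
      rwa [Matrix.det_fin_two] at this
    obtain ⟨c', hc'⟩ := hc
    -- `a d ≡ 1`, `d ≡ ±1` hence `a ≡ d` and `a + d ≡ ±2`
    have key : (M : ℤ) ∣ (γ 0 0 + γ 1 1) - 2 ∨ (M : ℤ) ∣ (γ 0 0 + γ 1 1) + 2 := by
      rcases hd with ⟨d', hd'⟩ | ⟨d', hd'⟩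
      · left
        have hd1 : γ 1 1 = 1 + M * d' := by linarith
        refine ⟨γ 0 1 * c' - γ 0 0 * d' + d', ?_⟩
        rw [hc', hd1] at hdet
        rw [hd1]
        linear_combination hdet
      · right
        have hd1 : γ 1 1 = -1 + M * d' := by linarith
        refine ⟨-(γ 0 1 * c') + γ 0 0 * d' + d', ?_⟩
        rw [hc', hd1] at hdet
        rw [hd1]
        linear_combination -hdet
    have hM' : (4 : ℤ) ≤ (M : ℤ) := by exact_mod_cast hM
    rcases key with hk | hk <;> rcases htr with h0 | h0 | h0 <;> rw [h0] at hk <;>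
      · have h3 := Int.eq_zero_of_abs_lt_dvd hk (lt_of_lt_of_le (by norm_num [abs_lt]) hM')
        norm_num at h3

/-- **the analytic Kummer isomorphism** for a subgroup `Γ` of finite index and level `M` containing
`-1`, with a separating function, acting freely modulo `±1`:
`Pic⁰(Frac WH0 Γ)[n] ≃+ Additive (charSub Γ n)`. -/
theorem exists_kummerEquiv {Γ : Subgroup SL(2, ℤ)} [Fintype (SL(2, ℤ) ⧸ Γ)] [Γ.FiniteIndex]
    {M : ℕ} [NeZero M] (hlev : CongruenceSubgroup.Gamma M ≤ Γ) {h₀ : WH0 Γ}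
    (hs : Wp.Separates Γ h₀) (hneg : (-1 : SL(2, ℤ)) ∈ Γ) (htf : TorsionFree Γ)
    {n : ℕ} (hn : 0 < n) :
    ∃ κ : Pic0.torsion ℂ (Fan Γ) n ≃+ Additive (charSub Γ n),
      ∀ x : Pic0.torsion ℂ (Fan Γ) n,
        K1.PicRel ℂ n (K1.IsKum Γ n (F := Fan Γ)) (x : Pic0 ℂ (Fan Γ))
          ((Additive.toMul (κ x) : charSub Γ n) : Γ →* ℂˣ) :=
  exists_kummerEquivAn hlev hs hneg htf hn (hRoot hneg hn)

/-- **the analytic Kummer isomorphism for `±Γ₁(M)`, `M ≥ 4`** -/
theorem exists_kummerEquiv_pmGamma1 {M : ℕ} [NeZero M] (hM : 4 ≤ M) {n : ℕ} (hn : 0 < n) :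
    ∃ κ : Pic0.torsion ℂ (Fan (Wp.pmGamma1 M)) n ≃+ Additive (charSub (Wp.pmGamma1 M) n),
      ∀ x : Pic0.torsion ℂ (Fan (Wp.pmGamma1 M)) n,
        K1.PicRel ℂ n (K1.IsKum (Wp.pmGamma1 M) n (F := Fan (Wp.pmGamma1 M)))
          (x : Pic0 ℂ (Fan (Wp.pmGamma1 M)))
          ((Additive.toMul (κ x) : charSub (Wp.pmGamma1 M) n) : Wp.pmGamma1 M →* ℂˣ) :=
  exists_kummerEquiv (Wp.Gamma_le_pmGamma1 M) (Wp.separates_frickeWH0 (by omega : 1 < M))
    (Wp.neg_one_mem_pmGamma1 M) (torsionFree_pmGamma1 hM) hn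

end Fermat.Agent.S48lib.X1.Kummer
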